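import Fermat.Agent.S21.H561.Weyl

/-!
# Weyl's lemma, `L²_loc`-limit form (helper561)

A sequence of continuous functions on an open set `U ⊆ ℂ` which is Cauchy in `L²` on every compact
subset of `U` and asymptotically weakly holomorphic converges in `L²_loc` to a holomorphic function.
-/

open MeasureTheory Complex Metric Set Filter Topology
open scoped ContDiff Real ENNReal

namespace Fermat.Agent.S21.H561

noncomputable section

lemma l2_memLp_of_continuousOn {F : ℂ → ℂ} {K : Set ℂ} (hK : IsCompact K)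
    (hF : ContinuousOn F K) : MemLp F 2 (volume.restrict K) := by
  have : IsFiniteMeasure (volume.restrict K) := isFiniteMeasure_restrict.2 hK.measure_lt_top.ne
  obtain ⟨C, hC⟩ := hK.exists_bound_of_continuousOn hF
  exact MemLp.of_bound (hF.aestronglyMeasurable hK.measurableSet) C
    ((ae_restrict_iff' hK.measurableSet).2 (ae_of_all _ hC))

lemma l2_integral_eq {F : ℂ → ℂ} {K : Set ℂ} (hK : IsCompact K) (hF : ContinuousOn F K) :
    ∫ z in K, ‖F z‖ ^ 2 = (eLpNorm F 2 (volume.restrict K)).toReal ^ 2 := by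
  have hmem := l2_memLp_of_continuousOn hK hF
  rw [hmem.eLpNorm_eq_integral_rpow_norm two_ne_zero ENNReal.ofNat_ne_top]
  have h0 : 0 ≤ ∫ z in K, ‖F z‖ ^ 2 := integral_nonneg fun z => by positivity
  simp only [ENNReal.toReal_ofNat, Real.rpow_two]
  rw [ENNReal.toReal_ofReal (by positivity), ← Real.rpow_natCast, ← Real.rpow_mul h0]
  norm_num

/-- `L²` completeness on a compact set, for continuous functions. -/
lemma l2_exists_limit {K : Set ℂ} (hK : IsCompact K) (g : ℕ → ℂ → ℂ)
    (hg : ∀ n, ContinuousOn (g n) K)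
    (hcauchy : ∀ ε > 0, ∃ M, ∀ m ≥ M, ∀ n ≥ M, ∫ z in K, ‖g n z - g m z‖ ^ 2 < ε) :
    ∃ h : ℂ → ℂ, MemLp h 2 (volume.restrict K) ∧
      Tendsto (fun n => eLpNorm (g n - h) 2 (volume.restrict K)) atTop (𝓝 0) := by
  have hmem : ∀ n, MemLp (g n) 2 (volume.restrict K) :=
    fun n => l2_memLp_of_continuousOn hK (hg n)
  set x : ℕ → Lp ℂ 2 (volume.restrict K) := fun n => (hmem n).toLp (g n) with hx
  have hcs : CauchySeq x := by
    rw [Metric.cauchySeq_iff]
    intro ε hε
    obtain ⟨M, hM⟩ := hcauchy (ε ^ 2) (by positivity)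
    refine ⟨M, fun m hm n hn => ?_⟩
    have h1 := hM n hn m hm
    have h2 : dist (x m) (x n) = (eLpNorm (g m - g n) 2 (volume.restrict K)).toReal := by
      rw [dist_edist, Lp.edist_toLp_toLp]
    rw [h2]
    have h3 := l2_integral_eq hK ((hg m).sub (hg n))
    have h4 : (eLpNorm (g m - g n) 2 (volume.restrict K)).toReal ^ 2 < ε ^ 2 := by
      rw [← h3]; exact h1
    exact lt_of_pow_lt_pow_left₀ 2 hε.le h4
  obtain ⟨y, hy⟩ := cauchySeq_tendsto_of_complete hcs
  refine ⟨y, Lp.memLp y, ?_⟩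
  refine (Lp.tendsto_Lp_iff_tendsto_eLpNorm'' g hmem y (Lp.memLp y)).1 ?_
  rw [Lp.toLp_coeFn]
  exact hy

/-- `L²` convergence on a compact set implies convergence of integrals against a continuous
function vanishing outside the compact set. -/
lemma l2_tendsto_integral_mul {K : Set ℂ} (hK : IsCompact K) (g : ℕ → ℂ → ℂ)
    (hg : ∀ n, ContinuousOn (g n) K) {h : ℂ → ℂ} (hh : MemLp h 2 (volume.restrict K))
    (hlim : Tendsto (fun n => eLpNorm (g n - h) 2 (volume.restrict K)) atTop (𝓝 0))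
    (D : ℂ → ℂ) (hD : Continuous D) (hDK : ∀ z, z ∉ K → D z = 0) :
    Tendsto (fun n => ∫ z, g n z * D z) atTop (𝓝 (∫ z, h z * D z)) := by
  have : IsFiniteMeasure (volume.restrict K) := isFiniteMeasure_restrict.2 hK.measure_lt_top.ne
  have hres : ∀ F : ℂ → ℂ, ∫ z, F z * D z = ∫ z in K, F z * D z := fun F =>
    (setIntegral_eq_integral_of_forall_compl_eq_zero fun z hz => by rw [hDK z hz, mul_zero]).symm
  simp_rw [hres]
  obtain ⟨C, hC⟩ := hK.exists_bound_of_continuousOn hD.continuousOn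
  refine tendsto_integral_of_L1' (μ := volume.restrict K) (fun z => h z * D z)
    (hh.1.mul hD.aestronglyMeasurable)
    (Eventually.of_forall fun n => ((hg n).mul hD.continuousOn).integrableOn_compact hK) ?_
  have hbound : ∀ n, eLpNorm ((fun z => g n z * D z) - fun z => h z * D z) 1 (volume.restrict K)
      ≤ ENNReal.ofReal C * (eLpNorm (g n - h) 2 (volume.restrict K)
          * (volume.restrict K) Set.univ ^ (1 / (1 : ℝ≥0∞).toReal - 1 / (2 : ℝ≥0∞).toReal)) := by
    intro n
    have hae : AEStronglyMeasurable (g n - h) (volume.restrict K) :=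
      ((hg n).aestronglyMeasurable hK.measurableSet).sub hh.1
    calc eLpNorm ((fun z => g n z * D z) - fun z => h z * D z) 1 (volume.restrict K)
        ≤ ENNReal.ofReal C * eLpNorm (g n - h) 1 (volume.restrict K) := by
          refine eLpNorm_le_mul_eLpNorm_of_ae_le_mul ?_ 1
          rw [ae_restrict_iff' hK.measurableSet]
          refine ae_of_all _ fun z hz => ?_
          simp only [Pi.sub_apply]
          rw [← sub_mul, norm_mul, mul_comm]
          exact mul_le_mul_of_nonneg_right (hC z hz) (norm_nonneg _)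
      _ ≤ _ := by
          gcongr
          exact eLpNorm_le_eLpNorm_mul_rpow_measure_univ (by norm_num) hae
  have hlim2 : Tendsto (fun n => ENNReal.ofReal C * (eLpNorm (g n - h) 2 (volume.restrict K)
          * (volume.restrict K) Set.univ ^ (1 / (1 : ℝ≥0∞).toReal - 1 / (2 : ℝ≥0∞).toReal)))
      atTop (𝓝 0) := by
    have hfin : (volume.restrict K) Set.univ ^ (1 / (1 : ℝ≥0∞).toReal - 1 / (2 : ℝ≥0∞).toReal)
        ≠ (⊤ : ℝ≥0∞) := by
      refine ENNReal.rpow_ne_top_of_nonneg ?_ (measure_ne_top _ _)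
      simp only [ENNReal.toReal_one, ENNReal.toReal_ofNat]
      norm_num
    have h1 := ENNReal.Tendsto.mul_const hlim (Or.inr hfin)
    have h2 := ENNReal.Tendsto.const_mul h1 (Or.inr (ENNReal.ofReal_ne_top (r := C)))
    simpa using h2
  exact tendsto_of_tendsto_of_tendsto_of_le_of_le tendsto_const_nhds hlim2
    (fun n => bot_le) hbound

lemma continuous_dbarR {η : ℂ → ℝ} (hη : ContDiff ℝ ∞ η) : Continuous (dbarR η) := by
  have h1 : Continuous (fderiv ℝ η) := hη.continuous_fderiv (by norm_num)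
  have h2 : ∀ v : ℂ, Continuous fun z => ((fderiv ℝ η z v : ℝ) : ℂ) := fun v =>
    continuous_ofReal.comp ((ContinuousLinearMap.apply ℝ ℝ v).continuous.comp h1)
  unfold dbarR
  exact continuous_const.mul ((h2 1).add (continuous_const.mul (h2 I)))

lemma dbarR_eq_zero_of_notMem {η : ℂ → ℝ} {z : ℂ} (hz : z ∉ tsupport η) : dbarR η z = 0 := by
  unfold dbarR
  rw [fderiv_of_notMem_tsupport ℝ hz]
  simp

/-- The local form: on a ball whose closure lies in `U`, the `L²` limit is holomorphic. -/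
lemma weyl_l2_local {U : Set ℂ} (g : ℕ → ℂ → ℂ) (hg : ∀ n, ContinuousOn (g n) U)
    (hcauchy : ∀ K : Set ℂ, IsCompact K → K ⊆ U → ∀ ε > 0, ∃ M, ∀ m ≥ M, ∀ n ≥ M,
        ∫ z in K, ‖g n z - g m z‖ ^ 2 < ε)
    (hweak : ∀ η : ℂ → ℝ, ContDiff ℝ ∞ η → HasCompactSupport η → tsupport η ⊆ U →
        Tendsto (fun n => ∫ z, g n z *
          (((fderiv ℝ η z 1 : ℝ) : ℂ) + Complex.I * ((fderiv ℝ η z Complex.I : ℝ) : ℂ)))
          atTop (𝓝 0))
    {z₀ : ℂ} {r : ℝ} (hsub : closedBall z₀ r ⊆ U) :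
    ∃ f : ℂ → ℂ, DifferentiableOn ℂ f (ball z₀ r) ∧
      Tendsto (fun n => eLpNorm (g n - f) 2 (volume.restrict (ball z₀ r))) atTop (𝓝 0) := by
  have hK : IsCompact (closedBall z₀ r) := isCompact_closedBall z₀ r
  have hgK : ∀ n, ContinuousOn (g n) (closedBall z₀ r) := fun n => (hg n).mono hsub
  obtain ⟨h, hh, hlim⟩ := l2_exists_limit hK g hgK (hcauchy _ hK hsub)
  have : IsFiniteMeasure (volume.restrict (closedBall z₀ r)) :=
    isFiniteMeasure_restrict.2 hK.measure_lt_top.ne
  have hint : IntegrableOn h (closedBall z₀ r) volume := hh.integrable (by norm_num)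
  have hloc : LocallyIntegrableOn h (ball z₀ r) volume :=
    (hint.mono_set ball_subset_closedBall).locallyIntegrableOn
  have hwk : WeakHolo (ball z₀ r) h := by
    intro η hη hc hs
    have hDK : ∀ z, z ∉ closedBall z₀ r → dbarR η z = 0 := fun z hz =>
      dbarR_eq_zero_of_notMem fun hz' => hz (ball_subset_closedBall (hs hz'))
    have h1 := l2_tendsto_integral_mul hK g hgK hh hlim (dbarR η) (continuous_dbarR hη) hDK
    have h2 := hweak η hη hc (hs.trans (ball_subset_closedBall.trans hsub))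
    have h3 : ∀ n, ∫ z, g n z * dbarR η z = (1 / 2 : ℂ) * ∫ z, g n z *
          (((fderiv ℝ η z 1 : ℝ) : ℂ) + Complex.I * ((fderiv ℝ η z Complex.I : ℝ) : ℂ)) := by
      intro n
      rw [← integral_const_mul]
      refine integral_congr_ae (ae_of_all _ fun z => ?_)
      simp only [dbarR]
      ring
    simp_rw [h3] at h1
    have h4 := h2.const_mul (1 / 2 : ℂ)
    rw [mul_zero] at h4
    exact tendsto_nhds_unique h1 h4
  obtain ⟨f, hf, hfe⟩ := weyl_dbar isOpen_ball h hloc hwk
  refine ⟨f, hf, ?_⟩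
  have hle : ∀ n, eLpNorm (g n - f) 2 (volume.restrict (ball z₀ r))
      ≤ eLpNorm (g n - h) 2 (volume.restrict (closedBall z₀ r)) := by
    intro n
    have e1 : eLpNorm (g n - f) 2 (volume.restrict (ball z₀ r))
        = eLpNorm (g n - h) 2 (volume.restrict (ball z₀ r)) := by
      refine eLpNorm_congr_ae ?_
      filter_upwards [hfe] with z hz
      simp only [Pi.sub_apply, hz]
    rw [e1]
    exact eLpNorm_mono_measure _ (Measure.restrict_mono ball_subset_closedBall le_rfl)
  exact tendsto_of_tendsto_of_tendsto_of_le_of_le tendsto_const_nhds hlim (fun n => bot_le) hle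

/-- Uniqueness of continuous `L²_loc` limits on overlaps. -/
lemma l2_limit_unique {g : ℕ → ℂ → ℂ} {V₁ V₂ : Set ℂ} (hV₁ : IsOpen V₁) (hV₂ : IsOpen V₂)
    (hg₁ : ∀ n, ContinuousOn (g n) V₁)
    {f₁ f₂ : ℂ → ℂ} (hf₁ : ContinuousOn f₁ V₁) (hf₂ : ContinuousOn f₂ V₂)
    (h₁ : Tendsto (fun n => eLpNorm (g n - f₁) 2 (volume.restrict V₁)) atTop (𝓝 0))
    (h₂ : Tendsto (fun n => eLpNorm (g n - f₂) 2 (volume.restrict V₂)) atTop (𝓝 0)) :
    EqOn f₁ f₂ (V₁ ∩ V₂) := by
  have hW : IsOpen (V₁ ∩ V₂) := hV₁.inter hV₂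
  have hm1 : ∀ n, AEStronglyMeasurable (g n - f₁) (volume.restrict (V₁ ∩ V₂)) := fun n =>
    (((hg₁ n).sub hf₁).mono inter_subset_left).aestronglyMeasurable hW.measurableSet
  have hm2 : ∀ n, AEStronglyMeasurable (g n - f₂) (volume.restrict (V₁ ∩ V₂)) := fun n =>
    ((((hg₁ n).mono inter_subset_left).sub (hf₂.mono inter_subset_right))).aestronglyMeasurable
      hW.measurableSet
  have hle : ∀ n, eLpNorm (f₁ - f₂) 2 (volume.restrict (V₁ ∩ V₂))
      ≤ eLpNorm (g n - f₂) 2 (volume.restrict V₂) + eLpNorm (g n - f₁) 2 (volume.restrict V₁) := by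
    intro n
    have e : f₁ - f₂ = (g n - f₂) - (g n - f₁) := by
      ext z; simp
    rw [e]
    refine (eLpNorm_sub_le (hm2 n) (hm1 n) (by norm_num)).trans ?_
    exact add_le_add
      (eLpNorm_mono_measure _ (Measure.restrict_mono inter_subset_right le_rfl))
      (eLpNorm_mono_measure _ (Measure.restrict_mono inter_subset_left le_rfl))
  have hlim : Tendsto (fun n => eLpNorm (g n - f₂) 2 (volume.restrict V₂)
      + eLpNorm (g n - f₁) 2 (volume.restrict V₁)) atTop (𝓝 (0 + 0)) := h₂.add h₁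
  rw [add_zero] at hlim
  have hz : eLpNorm (f₁ - f₂) 2 (volume.restrict (V₁ ∩ V₂)) = 0 :=
    le_antisymm (ge_of_tendsto' hlim hle) bot_le
  have hmf : AEStronglyMeasurable (f₁ - f₂) (volume.restrict (V₁ ∩ V₂)) :=
    ((hf₁.mono inter_subset_left).sub (hf₂.mono inter_subset_right)).aestronglyMeasurable
      hW.measurableSet
  rw [eLpNorm_eq_zero_iff hmf two_ne_zero] at hz
  refine Measure.eqOn_open_of_ae_eq (μ := (volume : Measure ℂ)) ?_ hW
    (hf₁.mono inter_subset_left) (hf₂.mono inter_subset_right)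
  filter_upwards [hz] with z hz
  simpa [sub_eq_zero] using hz

lemma l2_eLpNorm_union_le (F : ℂ → ℂ) (S T : Set ℂ) :
    eLpNorm F 2 (volume.restrict (S ∪ T))
      ≤ eLpNorm F 2 (volume.restrict S) + eLpNorm F 2 (volume.restrict T) := by
  simp only [eLpNorm_eq_lintegral_rpow_enorm_toReal (two_ne_zero) (ENNReal.ofNat_ne_top)]
  refine le_trans (ENNReal.rpow_le_rpow (lintegral_union_le _ S T) (by positivity)) ?_
  refine ENNReal.rpow_add_le_add_rpow _ _ (by positivity) ?_
  simp only [ENNReal.toReal_ofNat]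
  norm_num

lemma l2_tendsto_biUnion (F : ℕ → ℂ → ℂ) (S : ℂ → Set ℂ) (t : Finset ℂ)
    (h : ∀ i ∈ t, Tendsto (fun n => eLpNorm (F n) 2 (volume.restrict (S i))) atTop (𝓝 0)) :
    Tendsto (fun n => eLpNorm (F n) 2 (volume.restrict (⋃ i ∈ t, S i))) atTop (𝓝 0) := by
  classical
  induction t using Finset.induction_on with
  | empty => simp
  | insert a t ha ih =>
    have h1 := h a (Finset.mem_insert_self a t)
    have h2 := ih fun i hi => h i (Finset.mem_insert_of_mem hi)
    have h3 : Tendsto (fun n => eLpNorm (F n) 2 (volume.restrict (S a))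
        + eLpNorm (F n) 2 (volume.restrict (⋃ i ∈ t, S i))) atTop (𝓝 (0 + 0)) := h1.add h2
    rw [add_zero] at h3
    refine tendsto_of_tendsto_of_tendsto_of_le_of_le tendsto_const_nhds h3 (fun n => bot_le)
      fun n => ?_
    rw [Finset.set_biUnion_insert]
    exact l2_eLpNorm_union_le _ _ _

/-- **Weyl's lemma, `L²_loc`-limit form**, on an arbitrary open subset of `ℂ`. -/
theorem weyl_lemma_open {U : Set ℂ} (hU : IsOpen U) (g : ℕ → ℂ → ℂ)
    (hg : ∀ n, ContinuousOn (g n) U)
    (hcauchy : ∀ K : Set ℂ, IsCompact K → K ⊆ U → ∀ ε > 0, ∃ M, ∀ m ≥ M, ∀ n ≥ M,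
        ∫ z in K, ‖g n z - g m z‖ ^ 2 < ε)
    (hweak : ∀ η : ℂ → ℝ, ContDiff ℝ ∞ η → HasCompactSupport η → tsupport η ⊆ U →
        Tendsto (fun n => ∫ z, g n z *
          (((fderiv ℝ η z 1 : ℝ) : ℂ) + Complex.I * ((fderiv ℝ η z Complex.I : ℝ) : ℂ)))
          atTop (𝓝 0)) :
    ∃ f : ℂ → ℂ, DifferentiableOn ℂ f U ∧
      ∀ K : Set ℂ, IsCompact K → K ⊆ U →
        Tendsto (fun n => ∫ z in K, ‖g n z - f z‖ ^ 2) atTop (𝓝 0) := by
  -- local data
  have hloc : ∀ z ∈ U, ∃ r : ℝ, 0 < r ∧ closedBall z r ⊆ U ∧ ∃ f : ℂ → ℂ,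
      DifferentiableOn ℂ f (ball z r) ∧
      Tendsto (fun n => eLpNorm (g n - f) 2 (volume.restrict (ball z r))) atTop (𝓝 0) := by
    intro z hz
    obtain ⟨r, hr, hrU⟩ := Metric.nhds_basis_closedBall.mem_iff.mp (hU.mem_nhds hz)
    exact ⟨r, hr, hrU, weyl_l2_local g hg hcauchy hweak hrU⟩
  choose! r hr hrU F hF hFlim using hloc
  have hballU : ∀ z ∈ U, ball z (r z) ⊆ U := fun z hz =>
    ball_subset_closedBall.trans (hrU z hz)
  -- compatibility on overlaps
  have hcompat : ∀ z ∈ U, ∀ w ∈ U, EqOn (F z) (F w) (ball z (r z) ∩ ball w (r w)) :=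
    fun z hz w hw => l2_limit_unique isOpen_ball isOpen_ball
      (fun n => (hg n).mono (hballU z hz)) (hF z hz).continuousOn (hF w hw).continuousOn
      (hFlim z hz) (hFlim w hw)
  have hglue : ∀ z ∈ U, EqOn (fun w => F w w) (F z) (ball z (r z)) := by
    intro z hz w hw
    have hwU : w ∈ U := hballU z hz hw
    exact hcompat w hwU z hz ⟨mem_ball_self (hr w hwU), hw⟩
  refine ⟨fun w => F w w, ?_, ?_⟩
  · intro z hz
    have h1 : DifferentiableAt ℂ (F z) z :=
      (hF z hz).differentiableAt (isOpen_ball.mem_nhds (mem_ball_self (hr z hz)))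
    have h2 : (fun w => F w w) =ᶠ[𝓝 z] F z := by
      filter_upwards [isOpen_ball.mem_nhds (mem_ball_self (hr z hz))] with w hw
      exact hglue z hz hw
    exact (h2.differentiableAt_iff.2 h1).differentiableWithinAt
  · intro K hK hKU
    set f : ℂ → ℂ := fun w => F w w with hf
    have hfcont : ContinuousOn f U := by
      intro z hz
      have h1 : ContinuousAt (F z) z :=
        (hF z hz).continuousOn.continuousAt (isOpen_ball.mem_nhds (mem_ball_self (hr z hz)))
      have h2 : f =ᶠ[𝓝 z] F z := by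
        filter_upwards [isOpen_ball.mem_nhds (mem_ball_self (hr z hz))] with w hw
        exact hglue z hz hw
      exact (h1.congr h2.symm).continuousWithinAt
    obtain ⟨t, htK, hcov⟩ := hK.elim_nhds_subcover (fun z => ball z (r z))
      (fun z hz => isOpen_ball.mem_nhds (mem_ball_self (hr z (hKU hz))))
    have hlimU := l2_tendsto_biUnion (fun n => g n - f) (fun z => ball z (r z)) t (by
      intro z hz
      have hzU : z ∈ U := hKU (htK z hz)
      have e : ∀ n, eLpNorm (g n - f) 2 (volume.restrict (ball z (r z)))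
          = eLpNorm (g n - F z) 2 (volume.restrict (ball z (r z))) := by
        intro n
        refine eLpNorm_congr_ae ?_
        rw [Filter.EventuallyEq, ae_restrict_iff' measurableSet_ball]
        refine ae_of_all _ fun w hw => ?_
        simp only [Pi.sub_apply]
        rw [hglue z hzU hw]
      simp_rw [e]
      exact hFlim z hzU)
    have hlimK : Tendsto (fun n => eLpNorm (g n - f) 2 (volume.restrict K)) atTop (𝓝 0) :=
      tendsto_of_tendsto_of_tendsto_of_le_of_le tendsto_const_nhds hlimU (fun n => bot_le)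
        fun n => eLpNorm_mono_measure _ (Measure.restrict_mono hcov le_rfl)
    have hconv : ∀ n, ∫ z in K, ‖g n z - f z‖ ^ 2
        = (eLpNorm (g n - f) 2 (volume.restrict K)).toReal ^ 2 := fun n =>
      l2_integral_eq hK (((hg n).sub hfcont).mono hKU)
    simp_rw [hconv]
    have h1 := (ENNReal.tendsto_toReal ENNReal.zero_ne_top).comp hlimK
    have h2 := h1.pow 2
    simpa using h2

end

end Fermat.Agent.S21.H561
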