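import Mathlib

/-!
# Weyl's lemma for the Cauchy–Riemann operator (helper561)

If `g` is locally integrable on an open set `U ⊆ ℂ` and `∫ g · ∂η/∂z̄ = 0` for every real-valued
smooth compactly supported `η` with support in `U`, then `g` agrees a.e. on `U` with a
holomorphic function.
-/

open MeasureTheory Complex Metric Set Filter Topology
open scoped Convolution ContDiff Real

namespace Fermat.Agent.S21.H561

noncomputable section

/-- The Wirtinger derivative `∂/∂z̄` of a real-valued function on `ℂ`. -/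
def dbarR (η : ℂ → ℝ) (z : ℂ) : ℂ :=
  (1 / 2 : ℂ) * ((fderiv ℝ η z 1 : ℝ) + I * (fderiv ℝ η z I : ℝ))

/-- `g` is weakly holomorphic on `U`: it is orthogonal to `∂η/∂z̄` for every real test function
supported in `U`. -/
def WeakHolo (U : Set ℂ) (g : ℂ → ℂ) : Prop :=
  ∀ η : ℂ → ℝ, ContDiff ℝ ∞ η → HasCompactSupport η → tsupport η ⊆ U →
    ∫ z, g z * dbarR η z = 0

/-- mollification of `G` by the real kernel `m`. -/
def mol (m : ℂ → ℝ) (G : ℂ → ℂ) (x : ℂ) : ℂ := ∫ t, m (x - t) • G t

/-- The bilinear map `(c, r) ↦ r • c`. -/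
def smulFlip : ℂ →L[ℝ] ℝ →L[ℝ] ℂ := (ContinuousLinearMap.lsmul ℝ ℝ).flip

@[simp] lemma smulFlip_apply (c : ℂ) (r : ℝ) : smulFlip c r = r • c := rfl

lemma mol_eq_convolution (m : ℂ → ℝ) (G : ℂ → ℂ) :
    mol m G = G ⋆[smulFlip, volume] m := by
  ext x
  simp [mol, convolution_def]

lemma mol_eq_convolution' (m : ℂ → ℝ) (G : ℂ → ℂ) :
    mol m G = m ⋆[ContinuousLinearMap.lsmul ℝ ℝ, volume] G := by
  rw [mol_eq_convolution, smulFlip, convolution_flip]

lemma hasFDerivAt_mol {m : ℂ → ℝ} {G : ℂ → ℂ} (hm : ContDiff ℝ 1 m) (hcm : HasCompactSupport m)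
    (hG : LocallyIntegrable G volume) (x : ℂ) :
    HasFDerivAt (mol m G) ((G ⋆[smulFlip.precompR ℂ, volume] fderiv ℝ m) x) x := by
  rw [mol_eq_convolution]
  exact hcm.hasFDerivAt_convolution_right smulFlip hG hm x

lemma fderiv_mol_apply {m : ℂ → ℝ} {G : ℂ → ℂ} (hm : ContDiff ℝ 1 m) (hcm : HasCompactSupport m)
    (hG : LocallyIntegrable G volume) (x v : ℂ) :
    (G ⋆[smulFlip.precompR ℂ, volume] fderiv ℝ m) x v = ∫ t, (fderiv ℝ m (x - t) v) • G t := by
  rw [convolution_precompR_apply smulFlip hG (hcm.fderiv ℝ) (hm.continuous_fderiv one_ne_zero)]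
  simp [convolution_def]

lemma differentiableAt_mol_of_weak {m : ℂ → ℝ} {G : ℂ → ℂ} (hm : ContDiff ℝ 1 m)
    (hcm : HasCompactSupport m) (hG : LocallyIntegrable G volume) (x : ℂ)
    (hw : ∫ t, G t * dbarR (fun t => m (x - t)) t = 0) :
    DifferentiableAt ℂ (mol m G) x := by
  have hD := hasFDerivAt_mol hm hcm hG x
  refine differentiableAt_complex_iff_differentiableAt_real.2 ⟨hD.differentiableAt, ?_⟩
  rw [hD.fderiv, fderiv_mol_apply hm hcm hG, fderiv_mol_apply hm hcm hG]
  -- the two directional derivatives of the kernel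
  have hfd : ∀ t v, fderiv ℝ (fun t => m (x - t)) t v = - fderiv ℝ m (x - t) v := by
    intro t v
    have h1 : HasFDerivAt (fun t : ℂ => m (x - t))
        ((fderiv ℝ m (x - t)).comp (-(ContinuousLinearMap.id ℝ ℂ))) t := by
      have := (hm.differentiable one_ne_zero (x - t)).hasFDerivAt
      exact this.comp t ((hasFDerivAt_id t).const_sub x)
    rw [h1.fderiv]
    simp
  have hcont : ∀ v : ℂ, Continuous fun t => fderiv ℝ m (x - t) v := by
    intro v
    have := hm.continuous_fderiv one_ne_zero
    exact (this.comp (continuous_const.sub continuous_id)).clm_apply continuous_const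
  have hcs : ∀ v : ℂ, HasCompactSupport fun t => fderiv ℝ m (x - t) v := by
    intro v
    have h1 : HasCompactSupport (fun t => fderiv ℝ m t v) := by
      refine (hcm.fderiv ℝ).mono ?_
      intro t ht
      simp only [Function.mem_support, ne_eq] at ht ⊢
      intro h0
      exact ht (by simp [h0])
    have := h1.comp_homeomorph ((Homeomorph.neg ℂ).trans (Homeomorph.addLeft x))
    refine this.mono ?_
    intro t ht
    simpa [sub_eq_add_neg] using ht
  have hint : ∀ v : ℂ, Integrable (fun t => fderiv ℝ m (x - t) v • G t) volume := fun v =>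
    hG.integrable_smul_left_of_hasCompactSupport (hcont v) (hcs v)
  have key : (∫ t, fderiv ℝ m (x - t) 1 • G t) + I • ∫ t, fderiv ℝ m (x - t) I • G t = 0 := by
    have hI : Integrable (fun t => I • fderiv ℝ m (x - t) I • G t) volume := (hint I).smul I
    rw [← integral_smul, ← integral_add (hint 1) hI]
    have : ∀ t, fderiv ℝ m (x - t) 1 • G t + I • fderiv ℝ m (x - t) I • G t
        = (-2 : ℂ) * (G t * dbarR (fun t => m (x - t)) t) := by
      intro t
      simp only [dbarR, hfd, Complex.real_smul, smul_eq_mul, Complex.ofReal_neg]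
      ring
    simp_rw [this]
    rw [integral_const_mul, hw, mul_zero]
  have h2 : I • ((∫ t, fderiv ℝ m (x - t) 1 • G t) + I • ∫ t, fderiv ℝ m (x - t) I • G t) = 0 := by
    rw [key, smul_zero]
  rw [smul_add, smul_smul, I_mul_I, neg_one_smul] at h2
  exact (eq_of_sub_eq_zero (by rw [← h2]; ring)).symm

/-- rotation invariance of the integral on `ℂ`. -/
lemma integral_comp_rot (f : ℂ → ℂ) (θ : ℝ) :
    ∫ s, f (Complex.exp (θ * I) * s) = ∫ s, f s := by
  have hmp : MeasurePreserving (rotation (Circle.exp θ)) (volume : Measure ℂ) volume :=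
    LinearIsometryEquiv.measurePreserving _
  have := hmp.integral_comp' (f := (rotation (Circle.exp θ)).toHomeomorph.toMeasurableEquiv) f
  simpa [rotation_apply] using this

/-- mean value property of holomorphic functions for averages against a radial kernel. -/
lemma mol_radial_eq {ρ : ℂ → ℝ} {k : ℂ → ℂ} {x : ℂ} {ε R : ℝ} (hρc : Continuous ρ)
    (hρs : ∀ z, ε ≤ ‖z‖ → ρ z = 0) (hρr : ∀ z w, ‖z‖ = ‖w‖ → ρ z = ρ w) (hεR : ε < R)
    (hkc : Continuous k) (hk : DifferentiableOn ℂ k (ball x R)) :
    mol ρ k x = (∫ t, ρ t) • k x := by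
  -- change of variables
  have h0 : mol ρ k x = ∫ u, ρ u • k (x - u) := by
    unfold mol
    rw [← integral_sub_left_eq_self (fun u => ρ u • k (x - u)) volume x]
    simp
  set J : ℂ := ∫ u, ρ u • k (x - u) with hJ
  set F : ℝ → ℂ → ℂ := fun θ s => ρ s • k (x - Complex.exp (θ * I) * s) with hF
  have hFJ : ∀ θ, ∫ s, F θ s = J := by
    intro θ
    have := integral_comp_rot (fun u => ρ u • k (x - u)) θ
    rw [hJ, ← this]
    refine integral_congr_ae (Eventually.of_forall fun s => ?_)
    simp only [hF]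
    rw [hρr (Complex.exp (θ * I) * s) s (by simp [Complex.norm_exp_ofReal_mul_I])]
  -- mean value in θ
  have hmv : ∀ s, ∫ θ in Ioc (0 : ℝ) (2 * π), F θ s = (2 * π) • (ρ s • k x) := by
    intro s
    by_cases hs : ε ≤ ‖s‖
    · simp [hF, hρs s hs]
    · rw [not_le] at hs
      have hd : DiffContOnCl ℂ (fun u => k (x - (u - x) * s)) (ball x |1|) := by
        apply DifferentiableOn.diffContOnCl
        intro u hu
        have hu' : u ∈ closedBall x 1 := by
          have := closure_ball_subset_closedBall hu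
          simpa using this
        have hmem : x - (u - x) * s ∈ ball x R := by
          rw [mem_ball, dist_eq_norm]
          have h1 : ‖(u - x) * s‖ ≤ ‖s‖ := by
            rw [norm_mul]
            have : ‖u - x‖ ≤ 1 := by simpa [dist_eq_norm] using hu'
            calc ‖u - x‖ * ‖s‖ ≤ 1 * ‖s‖ := by gcongr
              _ = ‖s‖ := one_mul _
          have : x - (u - x) * s - x = -((u - x) * s) := by ring
          rw [this, norm_neg]
          linarith
        have hka : DifferentiableAt ℂ k (x - (u - x) * s) :=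
          hk.differentiableAt (isOpen_ball.mem_nhds hmem)
        have hin : DifferentiableAt ℂ (fun u : ℂ => x - (u - x) * s) u := by fun_prop
        exact (hka.comp u hin).differentiableWithinAt
      have hca := hd.circleAverage
      rw [Real.circleAverage_def] at hca
      simp only [sub_self, zero_mul, sub_zero] at hca
      have h2 : ∫ θ in Ioc (0 : ℝ) (2 * π), F θ s
          = ρ s • ∫ θ in (0 : ℝ)..(2 * π), k (x - (circleMap x 1 θ - x) * s) := by
        rw [intervalIntegral.integral_of_le (by positivity), ← integral_smul]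
        refine integral_congr_ae (Eventually.of_forall fun θ => ?_)
        simp [hF, circleMap]
      rw [h2]
      have h3 : ∫ θ in (0 : ℝ)..(2 * π), k (x - (circleMap x 1 θ - x) * s) = (2 * π) • k x := by
        rw [← hca, smul_smul, mul_inv_cancel₀ (by positivity), one_smul]
      rw [h3, smul_comm]
  -- integrability on the product
  have hFc : Continuous (Function.uncurry F) := by
    simp only [hF]
    refine Continuous.smul (hρc.comp continuous_snd) (hkc.comp ?_)
    refine continuous_const.sub (Continuous.mul ?_ continuous_snd)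
    exact Complex.continuous_exp.comp ((Complex.continuous_ofReal.comp continuous_fst).mul
      continuous_const)
  have hFs : ∀ θ s, ε ≤ ‖s‖ → F θ s = 0 := by
    intro θ s hs
    simp [hF, hρs s hs]
  have hint : Integrable (Function.uncurry F)
      ((volume.restrict (Ioc (0 : ℝ) (2 * π))).prod (volume : Measure ℂ)) := by
    obtain ⟨C, hC⟩ := (isCompact_Icc.prod (isCompact_closedBall (0 : ℂ) ε)).exists_bound_of_continuousOn
      (f := Function.uncurry F) hFc.continuousOn (s := Icc (0 : ℝ) (2 * π) ×ˢ closedBall (0 : ℂ) ε)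
    have hdom : Integrable (fun p : ℝ × ℂ => (closedBall (0 : ℂ) ε).indicator (fun _ => C) p.2)
        ((volume.restrict (Ioc (0 : ℝ) (2 * π))).prod (volume : Measure ℂ)) := by
      have h1 : Integrable (fun _ : ℝ => (1 : ℝ)) (volume.restrict (Ioc (0 : ℝ) (2 * π))) :=
        integrable_const _
      have h2 : Integrable ((closedBall (0 : ℂ) ε).indicator (fun _ => C)) (volume : Measure ℂ) := by
        rw [integrable_indicator_iff measurableSet_closedBall]
        exact integrableOn_const (measure_closedBall_lt_top (x := (0 : ℂ)) (r := ε)).ne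
      simpa using h1.mul_prod h2
    refine hdom.mono' hFc.aestronglyMeasurable ?_
    have hae : ∀ᵐ p : ℝ × ℂ ∂((volume.restrict (Ioc (0 : ℝ) (2 * π))).prod (volume : Measure ℂ)),
        p.1 ∈ Ioc (0 : ℝ) (2 * π) := by
      have : (volume.restrict (Ioc (0 : ℝ) (2 * π))).prod (volume : Measure ℂ)
          = ((volume : Measure ℝ).prod (volume : Measure ℂ)).restrict
              (Ioc (0 : ℝ) (2 * π) ×ˢ (univ : Set ℂ)) := by
        rw [← Measure.prod_restrict, Measure.restrict_univ]
      rw [this]
      filter_upwards [ae_restrict_mem (measurableSet_Ioc.prod MeasurableSet.univ)] with p hp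
      exact hp.1
    filter_upwards [hae] with p hp
    by_cases hs : p.2 ∈ closedBall (0 : ℂ) ε
    · rw [indicator_of_mem hs]
      exact hC p ⟨Ioc_subset_Icc_self hp, hs⟩
    · rw [indicator_of_notMem hs]
      have : ε ≤ ‖p.2‖ := by
        simp only [mem_closedBall, dist_zero_right, not_le] at hs
        exact hs.le
      simp [Function.uncurry, hFs p.1 p.2 this]
  have hswap := integral_integral_swap (μ := volume.restrict (Ioc (0 : ℝ) (2 * π)))
    (ν := (volume : Measure ℂ)) (f := F) hint
  simp_rw [hFJ, hmv] at hswap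
  rw [integral_const, integral_smul] at hswap
  simp only [measureReal_restrict_apply_univ, Real.volume_real_Ioc_of_le (by positivity : (0:ℝ) ≤ 2 * π),
    sub_zero] at hswap
  rw [h0]
  have h2π : (2 * π : ℝ) ≠ 0 := by positivity
  have := congrArg (fun z : ℂ => (2 * π : ℝ)⁻¹ • z) hswap
  simp only [smul_smul, inv_mul_cancel₀ h2π, one_smul] at this
  rw [this, integral_smul_const]

lemma integrable_mol_kernel {ρ ψ : ℂ → ℝ} {G : ℂ → ℂ} (hρ : Continuous ρ)
    (hρc : HasCompactSupport ρ) (hψ : Continuous ψ) (hψc : HasCompactSupport ψ)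
    (hG : LocallyIntegrable G volume) (x : ℂ) :
    Integrable (Function.uncurry fun t s : ℂ => ρ (x - t) • ψ (t - s) • G s)
      ((volume : Measure ℂ).prod (volume : Measure ℂ)) := by
  -- compact sets carrying the support
  set K₁ : Set ℂ := (fun t => x - t) '' tsupport ρ with hK₁
  have hK₁c : IsCompact K₁ := hρc.isCompact.image (by fun_prop)
  set K₂ : Set ℂ := (fun p : ℂ × ℂ => p.1 - p.2) '' (K₁ ×ˢ tsupport ψ) with hK₂
  have hK₂c : IsCompact K₂ := (hK₁c.prod hψc.isCompact).image (by fun_prop)
  obtain ⟨Cρ, hCρ⟩ := hρ.bounded_above_of_compact_support hρc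
  obtain ⟨Cψ, hCψ⟩ := hψ.bounded_above_of_compact_support hψc
  have hCρ0 : 0 ≤ Cρ := (norm_nonneg _).trans (hCρ 0)
  have hCψ0 : 0 ≤ Cψ := (norm_nonneg _).trans (hCψ 0)
  have h1 : Integrable (K₁.indicator (fun _ => Cρ * Cψ)) (volume : Measure ℂ) := by
    rw [integrable_indicator_iff hK₁c.measurableSet]
    exact integrableOn_const hK₁c.measure_lt_top.ne
  have h2 : Integrable (K₂.indicator (fun s => ‖G s‖)) (volume : Measure ℂ) := by
    rw [integrable_indicator_iff hK₂c.measurableSet]
    exact (hG.integrableOn_isCompact hK₂c).norm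
  have hdom := h1.mul_prod h2
  refine hdom.mono' ?_ (Eventually.of_forall ?_)
  · have hc : Continuous fun p : ℂ × ℂ => ρ (x - p.1) * ψ (p.1 - p.2) := by fun_prop
    have hGm : AEStronglyMeasurable (fun p : ℂ × ℂ => G p.2)
        ((volume : Measure ℂ).prod (volume : Measure ℂ)) := hG.aestronglyMeasurable.comp_snd
    have := hc.aestronglyMeasurable.smul hGm
    refine this.congr (Eventually.of_forall fun p => ?_)
    simp [Function.uncurry, mul_smul]
  · rintro ⟨t, s⟩
    simp only [Function.uncurry]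
    by_cases ht : ρ (x - t) = 0
    · simp only [ht, zero_smul, norm_zero]
      exact mul_nonneg (indicator_nonneg (fun _ _ => mul_nonneg hCρ0 hCψ0) _)
        (indicator_nonneg (fun _ _ => norm_nonneg _) _)
    by_cases hs : ψ (t - s) = 0
    · simp only [hs, zero_smul, smul_zero, norm_zero]
      exact mul_nonneg (indicator_nonneg (fun _ _ => mul_nonneg hCρ0 hCψ0) _)
        (indicator_nonneg (fun _ _ => norm_nonneg _) _)
    have htK : t ∈ K₁ := ⟨x - t, subset_tsupport _ ht, by ring⟩
    have hsK : s ∈ K₂ := ⟨(t, t - s), ⟨htK, subset_tsupport _ hs⟩, by simp⟩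
    rw [indicator_of_mem htK, indicator_of_mem hsK, norm_smul, norm_smul]
    calc ‖ρ (x - t)‖ * (‖ψ (t - s)‖ * ‖G s‖) = (‖ρ (x - t)‖ * ‖ψ (t - s)‖) * ‖G s‖ := by ring
      _ ≤ (Cρ * Cψ) * ‖G s‖ := by
        gcongr
        · exact hCρ _
        · exact hCψ _

lemma mol_mol_eq {ρ ψ : ℂ → ℝ} {G : ℂ → ℂ} (hρ : Continuous ρ)
    (hρc : HasCompactSupport ρ) (hψ : Continuous ψ) (hψc : HasCompactSupport ψ)
    (hG : LocallyIntegrable G volume) (x : ℂ) :
    mol ρ (mol ψ G) x = ∫ s, (∫ t, ρ (x - t) * ψ (t - s)) • G s := by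
  unfold mol
  simp_rw [← integral_smul]
  rw [integral_integral_swap (integrable_mol_kernel hρ hρc hψ hψc hG x)]
  refine integral_congr_ae (Eventually.of_forall fun s => ?_)
  simp only
  rw [← integral_smul_const]
  refine integral_congr_ae (Eventually.of_forall fun t => ?_)
  simp [mul_smul]

lemma mol_mol_comm {ρ ψ : ℂ → ℝ} {G : ℂ → ℂ} (hρ : Continuous ρ)
    (hρc : HasCompactSupport ρ) (hψ : Continuous ψ) (hψc : HasCompactSupport ψ)
    (hG : LocallyIntegrable G volume) (x : ℂ) :
    mol ρ (mol ψ G) x = mol ψ (mol ρ G) x := by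
  rw [mol_mol_eq hρ hρc hψ hψc hG, mol_mol_eq hψ hψc hρ hρc hG]
  refine integral_congr_ae (Eventually.of_forall fun s => ?_)
  simp only
  congr 1
  rw [← integral_sub_left_eq_self (fun t => ρ (x - t) * ψ (t - s)) volume (x + s)]
  refine integral_congr_ae (Eventually.of_forall fun t => ?_)
  simp only
  rw [mul_comm]
  congr 2 <;> ring

lemma exists_radial_mollifier {ε : ℝ} (hε : 0 < ε) :
    ∃ ρ : ℂ → ℝ, ContDiff ℝ ∞ ρ ∧ HasCompactSupport ρ ∧ (∀ z, ε ≤ ‖z‖ → ρ z = 0) ∧
      (∀ z w, ‖z‖ = ‖w‖ → ρ z = ρ w) ∧ ∫ z, ρ z = 1 := by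
  set ρ₀ : ℂ → ℝ := fun z => Real.smoothTransition (1 - ‖z‖ ^ 2 / ε ^ 2) with hρ₀
  have hsm : ContDiff ℝ ∞ ρ₀ := by
    refine Real.smoothTransition.contDiff.comp ?_
    exact contDiff_const.sub ((contDiff_norm_sq ℝ).div_const _)
  have hz : ∀ z, ε ≤ ‖z‖ → ρ₀ z = 0 := by
    intro z hz
    refine Real.smoothTransition.zero_of_nonpos ?_
    have h1 : ε ^ 2 ≤ ‖z‖ ^ 2 := by gcongr
    have h2 : 1 ≤ ‖z‖ ^ 2 / ε ^ 2 := by
      rw [le_div_iff₀ (by positivity)]
      linarith
    linarith
  have hcs : HasCompactSupport ρ₀ := by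
    refine HasCompactSupport.intro (isCompact_closedBall (0 : ℂ) ε) ?_
    intro z hz'
    apply hz
    simp only [mem_closedBall, dist_zero_right, not_le] at hz'
    exact hz'.le
  have hrad : ∀ z w, ‖z‖ = ‖w‖ → ρ₀ z = ρ₀ w := by
    intro z w h
    simp only [hρ₀, h]
  have hpos : 0 < ∫ z, ρ₀ z := by
    refine hsm.continuous.integral_pos_of_hasCompactSupport_nonneg_nonzero hcs
      (fun z => Real.smoothTransition.nonneg _) (x := 0) ?_
    simp [hρ₀, Real.smoothTransition.one_of_one_le]
  refine ⟨fun z => (∫ z, ρ₀ z)⁻¹ * ρ₀ z, contDiff_const.mul hsm, ?_, ?_, ?_, ?_⟩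
  · exact hcs.mul_left
  · intro z hz'
    simp [hz z hz']
  · intro z w h
    simp [hrad z w h]
  · rw [integral_const_mul, inv_mul_cancel₀ hpos.ne']

/-- weak holomorphy on a ball implies holomorphy of every mollification (small kernel). -/
lemma differentiableAt_mol_of_weakHolo {m : ℂ → ℝ} {G : ℂ → ℂ} {z₀ z : ℂ} {R ε : ℝ}
    (hm : ContDiff ℝ ∞ m) (hcm : HasCompactSupport m) (hms : tsupport m ⊆ closedBall 0 ε)
    (hG : LocallyIntegrable G volume) (hw : WeakHolo (ball z₀ R) G)
    (hz : dist z z₀ + ε < R) :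
    DifferentiableAt ℂ (mol m G) z := by
  have hm1 : ContDiff ℝ 1 m := hm.of_le (by norm_num)
  refine differentiableAt_mol_of_weak hm1 hcm hG z ?_
  have hsm : ContDiff ℝ ∞ (fun t => m (z - t)) := hm.comp (contDiff_const.sub contDiff_id)
  have hcs : HasCompactSupport (fun t => m (z - t)) := by
    have := hcm.comp_homeomorph ((Homeomorph.neg ℂ).trans (Homeomorph.addLeft z))
    refine this.mono ?_
    intro t ht
    simpa [sub_eq_add_neg] using ht
  have hts : tsupport (fun t => m (z - t)) ⊆ ball z₀ R := by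
    have h1 : tsupport (fun t => m (z - t)) ⊆ closedBall z ε := by
      refine closure_minimal ?_ isClosed_closedBall
      intro t ht
      have : z - t ∈ tsupport m := subset_tsupport _ ht
      have := hms this
      simpa [dist_eq_norm, norm_sub_rev] using this
    refine h1.trans ?_
    intro t ht
    rw [mem_ball]
    rw [mem_closedBall] at ht
    calc dist t z₀ ≤ dist t z + dist z z₀ := dist_triangle _ _ _
      _ ≤ ε + dist z z₀ := by linarith
      _ < R := by linarith
  exact hw _ hsm hcs hts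

lemma continuous_mol {m : ℂ → ℝ} {G : ℂ → ℂ} (hm : ContDiff ℝ 1 m) (hcm : HasCompactSupport m)
    (hG : LocallyIntegrable G volume) : Continuous (mol m G) :=
  continuous_iff_continuousAt.2 fun x => (hasFDerivAt_mol hm hcm hG x).continuousAt

/-- local form of Weyl's lemma. -/
lemma weyl_local {G : ℂ → ℂ} {z₀ : ℂ} {r : ℝ} (hr : 0 < r)
    (hG : LocallyIntegrable G volume) (hw : WeakHolo (ball z₀ (4 * r)) G) :
    ∃ f : ℂ → ℂ, DifferentiableOn ℂ f (ball z₀ r) ∧ ∀ᵐ z, z ∈ ball z₀ r → G z = f z := by
  obtain ⟨ρ, hρsm, hρcs, hρz, hρr, hρ1⟩ := exists_radial_mollifier hr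
  have hρ1' : ContDiff ℝ 1 ρ := hρsm.of_le (by norm_num)
  have hρts : tsupport ρ ⊆ closedBall 0 r := by
    refine closure_minimal ?_ isClosed_closedBall
    intro t ht
    by_contra hcon
    simp only [mem_closedBall, dist_zero_right, not_le] at hcon
    exact ht (hρz t hcon.le)
  set h : ℂ → ℂ := mol ρ G with hh
  have hhc : Continuous h := continuous_mol hρ1' hρcs hG
  have hhd : ∀ z ∈ ball z₀ (3 * r), DifferentiableAt ℂ h z := by
    intro z hz
    rw [mem_ball] at hz
    exact differentiableAt_mol_of_weakHolo hρsm hρcs hρts hG hw (by linarith)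
  -- Mathlib bump functions
  let φ : ℕ → ContDiffBump (0 : ℂ) := fun n =>
    ⟨r / (2 * (n + 2)), r / (n + 2), by positivity, by
      rw [div_lt_div_iff₀ (by positivity) (by positivity)]
      have : (0 : ℝ) < (n : ℝ) + 2 := by positivity
      nlinarith⟩
  have hφout : ∀ n, (φ n).rOut = r / (n + 2) := fun n => rfl
  have hφin : ∀ n, (φ n).rIn = r / (2 * (n + 2)) := fun n => rfl
  have hφlt : ∀ n, (φ n).rOut < r := by
    intro n
    rw [hφout, div_lt_iff₀ (by positivity)]
    have : (0 : ℝ) ≤ n := Nat.cast_nonneg n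
    nlinarith
  have hφ0 : Tendsto (fun n => (φ n).rOut) atTop (𝓝 0) := by
    simp only [hφout]
    have h1 : Tendsto (fun n : ℕ => (n : ℝ) + 2) atTop atTop :=
      tendsto_atTop_add_const_right _ _ tendsto_natCast_atTop_atTop
    exact h1.const_div_atTop r
  have hφK : ∀ᶠ n in atTop, (φ n).rOut ≤ 2 * (φ n).rIn := by
    refine Eventually.of_forall fun n => ?_
    rw [hφout, hφin]
    have : (0 : ℝ) < (n : ℝ) + 2 := by positivity
    field_simp
    rfl
  set mφ : ℕ → ℂ → ℝ := fun n => (φ n).normed volume with hmφ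
  have hmsm : ∀ n, ContDiff ℝ ∞ (mφ n) := fun n => (φ n).contDiff_normed
  have hmcs : ∀ n, HasCompactSupport (mφ n) := fun n => (φ n).hasCompactSupport_normed
  have hmts : ∀ n, tsupport (mφ n) ⊆ closedBall 0 (φ n).rOut := fun n =>
    ((φ n).tsupport_normed_eq (μ := volume)).le
  have hm1 : ∀ n, ContDiff ℝ 1 (mφ n) := fun n => (hmsm n).of_le (by norm_num)
  -- the mollifications `k n`
  set k : ℕ → ℂ → ℂ := fun n => mol (mφ n) G with hk
  have hkc : ∀ n, Continuous (k n) := fun n => continuous_mol (hm1 n) (hmcs n) hG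
  have hkd : ∀ n, DifferentiableOn ℂ (k n) (ball z₀ (3 * r)) := by
    intro n z hz
    rw [mem_ball] at hz
    refine (differentiableAt_mol_of_weakHolo (hmsm n) (hmcs n) (hmts n) hG hw
      ?_).differentiableWithinAt
    have := hφlt n
    linarith
  -- mean value + commutation
  have hkey : ∀ n, ∀ z ∈ ball z₀ (2 * r), k n z = mol (mφ n) h z := by
    intro n z hz
    rw [mem_ball] at hz
    have hsub : ball z (3 * r - dist z z₀) ⊆ ball z₀ (3 * r) := by
      intro w hw'
      rw [mem_ball] at hw' ⊢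
      calc dist w z₀ ≤ dist w z + dist z z₀ := dist_triangle _ _ _
        _ < 3 * r := by linarith
    have h1 := mol_radial_eq (ρ := ρ) (k := k n) (x := z) (ε := r) (R := 3 * r - dist z z₀)
      hρsm.continuous hρz hρr (by linarith) (hkc n) ((hkd n).mono hsub)
    rw [hρ1, one_smul] at h1
    rw [← h1]
    exact mol_mol_comm hρsm.continuous hρcs (hmsm n).continuous (hmcs n) hG z
  -- convergence statements
  have hconv1 : ∀ z, Tendsto (fun n => mol (mφ n) h z) atTop (𝓝 (h z)) := by
    intro z
    have := ContDiffBump.convolution_tendsto_right_of_continuous (μ := (volume : Measure ℂ))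
      (φ := φ) hφ0 hhc z
    simpa only [mol_eq_convolution'] using this
  have hconv2 : ∀ᵐ z, Tendsto (fun n => k n z) atTop (𝓝 (G z)) := by
    have := ContDiffBump.ae_convolution_tendsto_right_of_locallyIntegrable
      (μ := (volume : Measure ℂ)) (φ := φ) (K := 2) hφ0 hφK hG
    filter_upwards [this] with z hz
    simpa only [hk, mol_eq_convolution'] using hz
  refine ⟨h, fun z hz => ?_, ?_⟩
  · exact (hhd z (ball_subset_ball (by linarith) hz)).differentiableWithinAt
  · filter_upwards [hconv2] with z hz hzb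
    have hzb' : z ∈ ball z₀ (2 * r) := ball_subset_ball (by linarith) hzb
    have h2 : Tendsto (fun n => k n z) atTop (𝓝 (h z)) := by
      refine (hconv1 z).congr fun n => ?_
      exact (hkey n z hzb').symm
    exact tendsto_nhds_unique hz h2

/-- restriction of a weakly holomorphic function to a closed ball inside `U`. -/
lemma weakHolo_indicator {U : Set ℂ} {g : ℂ → ℂ} (hweak : WeakHolo U g) {z₀ : ℂ} {R : ℝ}
    (hsub : closedBall z₀ R ⊆ U) :
    WeakHolo (ball z₀ R) ((closedBall z₀ R).indicator g) := by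
  intro η hη hηc hηs
  have := hweak η hη hηc ((hηs.trans ball_subset_closedBall).trans hsub)
  rw [← this]
  refine integral_congr_ae (Eventually.of_forall fun z => ?_)
  by_cases hz : z ∈ closedBall z₀ R
  · simp only [indicator_of_mem hz]
  · have hz' : z ∉ tsupport η := fun h => hz (ball_subset_closedBall (hηs h))
    simp [dbarR, fderiv_of_notMem_tsupport ℝ hz']

/-- **Weyl's lemma** for the Cauchy–Riemann operator: a locally integrable weakly holomorphic
function on an open set agrees almost everywhere with a holomorphic function. -/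
theorem weyl_dbar {U : Set ℂ} (hU : IsOpen U) (g : ℂ → ℂ) (hg : LocallyIntegrableOn g U volume)
    (hweak : WeakHolo U g) :
    ∃ f : ℂ → ℂ, DifferentiableOn ℂ f U ∧ ∀ᵐ z ∂(volume.restrict U), g z = f z := by
  -- local data
  have hloc : ∀ z₀ ∈ U, ∃ r : ℝ, 0 < r ∧ ball z₀ r ⊆ U ∧ ∃ f : ℂ → ℂ,
      DifferentiableOn ℂ f (ball z₀ r) ∧ ∀ᵐ z, z ∈ ball z₀ r → g z = f z := by
    intro z₀ hz₀
    obtain ⟨δ, hδ, hδU⟩ := Metric.isOpen_iff.1 hU z₀ hz₀
    have hsub : closedBall z₀ (4 * (δ / 8)) ⊆ U :=
      (closedBall_subset_ball (by linarith)).trans hδU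
    have hGi : Integrable ((closedBall z₀ (4 * (δ / 8))).indicator g) volume := by
      rw [integrable_indicator_iff measurableSet_closedBall]
      exact hg.integrableOn_compact_subset hsub (isCompact_closedBall _ _)
    obtain ⟨f, hf, hfg⟩ := weyl_local (z₀ := z₀) (r := δ / 8) (by positivity)
      hGi.locallyIntegrable (weakHolo_indicator hweak hsub)
    refine ⟨δ / 8, by positivity, (ball_subset_ball (by linarith)).trans hδU, f, hf, ?_⟩
    filter_upwards [hfg] with z hz hzb
    rw [← hz hzb, indicator_of_mem]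
    exact closedBall_subset_closedBall (by linarith) (ball_subset_closedBall hzb)
  choose! r hr hrU F hF hFg using hloc
  -- compatibility on overlaps
  have hcompat : ∀ z ∈ U, ∀ w ∈ U, ∀ u ∈ ball z (r z) ∩ ball w (r w), F z u = F w u := by
    intro z hz w hw
    have hopen : IsOpen (ball z (r z) ∩ ball w (r w)) := isOpen_ball.inter isOpen_ball
    refine Measure.eqOn_open_of_ae_eq (μ := (volume : Measure ℂ)) ?_ hopen
      ((hF z hz).continuousOn.mono inter_subset_left)
      ((hF w hw).continuousOn.mono inter_subset_right)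
    rw [Filter.EventuallyEq, ae_restrict_iff' hopen.measurableSet]
    filter_upwards [hFg z hz, hFg w hw] with u h1 h2 hu
    rw [← h1 hu.1, ← h2 hu.2]
  -- the glued function
  refine ⟨fun w => F w w, ?_, ?_⟩
  · intro z hz
    have hev : (fun w => F w w) =ᶠ[𝓝 z] F z := by
      filter_upwards [isOpen_ball.mem_nhds (mem_ball_self (hr z hz))] with w hw
      have hwU : w ∈ U := hrU z hz hw
      exact (hcompat z hz w hwU w ⟨hw, mem_ball_self (hr w hwU)⟩).symm
    have hd : DifferentiableAt ℂ (F z) z :=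
      (hF z hz).differentiableAt (isOpen_ball.mem_nhds (mem_ball_self (hr z hz)))
    exact (hd.congr_of_eventuallyEq hev).differentiableWithinAt
  · obtain ⟨T, hTU, hTc, hTcov⟩ := TopologicalSpace.countable_cover_nhdsWithin
      (f := fun z => ball z (r z)) (s := U)
      (fun z hz => mem_nhdsWithin_of_mem_nhds (isOpen_ball.mem_nhds (mem_ball_self (hr z hz))))
    rw [ae_restrict_iff' hU.measurableSet]
    have hall : ∀ᵐ u, ∀ z ∈ T, u ∈ ball z (r z) → g u = F z u := by
      rw [ae_ball_iff hTc]
      intro z hz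
      exact hFg z (hTU hz)
    filter_upwards [hall] with u hu huU
    obtain ⟨z, hzT, huz⟩ := mem_iUnion₂.1 (hTcov huU)
    rw [hu z hzT huz]
    exact hcompat z (hTU hzT) u huU u ⟨huz, mem_ball_self (hr u huU)⟩

end

end Fermat.Agent.S21.H561
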